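import Fermat.Agent.LT.Sp.Cor

set_option autoImplicit false

/-! # Bases of the translation lattices -/

namespace Fermat.Agent.LT.Bd

open NumberField Module Matrix
open Sp

variable (F : Type*) [Field F] [NumberField F] [IsTotallyComplex F]

/-- the mixed space of a totally complex field -/
noncomputable def mixedEquiv : mixedEmbedding.mixedSpace F ≃ₗ[ℝ] (InfinitePlace F → ℂ) where
  toFun x := fun w => x.2 ⟨w, IsTotallyComplex.isComplex w⟩
  map_add' x y := rfl
  map_smul' c x := rfl
  invFun v := (fun w => absurd w.2 (InfinitePlace.not_isReal_iff_isComplex.mpr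
    (IsTotallyComplex.isComplex w.1)), fun w => v w.1)
  left_inv x := by
    refine Prod.ext ?_ rfl
    funext w
    exact absurd w.2 (InfinitePlace.not_isReal_iff_isComplex.mpr (IsTotallyComplex.isComplex w.1))
  right_inv v := rfl

/-- the integral basis, as a real basis of `∏ ℂ` -/
noncomputable def bF : Basis (Free.ChooseBasisIndex ℤ (𝓞 F)) ℝ (InfinitePlace F → ℂ) :=
  (mixedEmbedding.latticeBasis F).map (mixedEquiv F)

theorem bF_apply (i : Free.ChooseBasisIndex ℤ (𝓞 F)) (w : InfinitePlace F) :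
    bF F i w = w.embedding (integralBasis F i) := by
  rw [bF, Basis.map_apply, mixedEmbedding.latticeBasis_apply]
  rfl

/-- the basis multiplied by `N` -/
noncomputable def bN (N : ℕ) (hN : N ≠ 0) :
    Basis (Free.ChooseBasisIndex ℤ (𝓞 F)) ℝ (InfinitePlace F → ℂ) :=
  (bF F).unitsSMul fun _ => Units.mk0 (N : ℝ) (Nat.cast_ne_zero.mpr hN)

theorem bN_apply (N : ℕ) (hN : N ≠ 0) (i : Free.ChooseBasisIndex ℤ (𝓞 F)) (w : InfinitePlace F) :
    bN F N hN i w = w.embedding ((N : F) * integralBasis F i) := by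
  rw [bN, Basis.unitsSMul_apply, Pi.smul_apply, bF_apply, map_mul, map_natCast, Units.smul_def,
    Units.val_mk0, Complex.real_smul]
  simp

variable {F} {D : Type*} [MulAction (GL (Fin 2) F) D] [FinPart F D]

theorem exists_basis (d : D) : ∃ (N : ℕ) (hN : N ≠ 0), ∀ i, ∃ t ∈ trans F d,
    ∀ w : InfinitePlace F, bN F N hN i w = w.embedding t := by
  obtain ⟨N, hN, h⟩ := exists_mul_mem_trans (F := F) d
  refine ⟨N, hN, fun i => ⟨(N : F) * integralBasis F i, ?_, fun w => bN_apply F N hN i w⟩⟩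
  rw [integralBasis_apply]
  exact h (RingOfIntegers.basis F i)

/-- one basis for finitely many points -/
theorem exists_basis_finset (S : Finset D) : ∃ (N : ℕ) (hN : N ≠ 0), ∀ d ∈ S, ∀ i, ∃ t ∈ trans F d,
    ∀ w : InfinitePlace F, bN F N hN i w = w.embedding t := by
  choose N hN h using fun d : D => exists_mul_mem_trans (F := F) d
  have hN' : ∏ d ∈ S, N d ≠ 0 := Finset.prod_ne_zero_iff.mpr fun d _ => hN d
  refine ⟨∏ d ∈ S, N d, hN', fun d hd i => ⟨((∏ d ∈ S, N d : ℕ) : F) * integralBasis F i, ?_,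
    fun w => bN_apply F _ hN' i w⟩⟩
  obtain ⟨c, hc⟩ := Finset.dvd_prod_of_mem N hd
  have h1 := h d ((c : 𝓞 F) * RingOfIntegers.basis F i)
  rw [hc]
  convert h1 using 1
  rw [integralBasis_apply]
  push_cast
  ring

end Fermat.Agent.LT.Bd
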