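import Fermat.Agent.LT.Bd.Near

set_option autoImplicit false

/-! # Automorphic kernels of mean zero are bounded on Siegel sets -/

namespace Fermat.Agent.LT.Bd

open NumberField Module Matrix MeasureTheory
open scoped MatrixGroups ContDiff
open Sp

variable {F : Type*} [Field F] [NumberField F]
variable {D : Type*} [MulAction (GL (Fin 2) F) D]

/-- translation of a point of `∏ H³` by a complex vector -/
def trF {F : Type*} [Field F] (v : InfinitePlace F → ℂ) (p : HF F) : HF F :=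
  fun w => tr (v w) (p w)

/-- finite sums of products of smooth point pair kernels and kernels on `D` -/
noncomputable def famKer {I : Type*} [Fintype I] (Φ : I → (InfinitePlace F → ℝ) → ℂ)
    (κ : I → DKer F D) (x x' : HF F × D) : ℂ :=
  ∑ i, Φ i (cds x.1 x'.1) * (κ i).κ x.2 x'.2

variable [FinPart F D]

/-- the automorphic kernel -/
noncomputable def autK (k : HF F × D → HF F × D → ℂ) (x x' : HF F × D) : ℂ :=
  ∑' g : PGL(2, F), k x (g • x')

variable {I : Type*} [Fintype I] {Φ : I → (InfinitePlace F → ℝ) → ℂ} {κ : I → DKer F D}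

theorem famKer_smul (g : PGL(2, F)) (x x' : HF F × D) :
    famKer Φ κ (g • x) (g • x') = famKer Φ κ x x' := by
  obtain ⟨γ, rfl⟩ := ProjGenLinGroup.mk_surjective g
  rw [famKer, famKer]
  refine Finset.sum_congr rfl fun i _ => ?_
  have h1 : cds (ProjGenLinGroup.mk γ • x).1 (ProjGenLinGroup.mk γ • x').1 = cds x.1 x'.1 := by
    funext w
    exact cd_smul_HF γ x.1 x'.1 w
  have h2 : (κ i).κ (ProjGenLinGroup.mk γ • x).2 (ProjGenLinGroup.mk γ • x').2 =
      (κ i).κ x.2 x'.2 := (κ i).smul γ x.2 x'.2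
  rw [h1, h2]

theorem autK_smul_left (k : HF F × D → HF F × D → ℂ)
    (hk : ∀ (g : PGL(2, F)) x x', k (g • x) (g • x') = k x x') (γ : PGL(2, F))
    (x x' : HF F × D) : autK k (γ • x) x' = autK k x x' := by
  rw [autK, autK, ← (Equiv.mulLeft γ).tsum_eq]
  refine tsum_congr fun g => ?_
  rw [Equiv.coe_mulLeft, mul_smul, hk]

theorem autK_smul_right (k : HF F × D → HF F × D → ℂ) (γ : PGL(2, F))
    (x x' : HF F × D) : autK k x (γ • x') = autK k x x' := by
  rw [autK, autK, ← (Equiv.mulRight γ⁻¹).tsum_eq]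
  refine tsum_congr fun g => ?_
  rw [Equiv.coe_mulRight, ← mul_smul, inv_mul_cancel_right]

omit [NumberField F] in
theorem trF_trF (v u : InfinitePlace F → ℂ) (p : HF F) :
    trF v (trF u p) = trF (u + v) p := by
  funext w
  apply H3.ext
  · simp [trF, add_assoc]
  · rfl

omit [NumberField F] in
theorem trF_zero (p : HF F) : trF 0 p = p := by
  funext w
  apply H3.ext
  · simp [trF]
  · rfl

omit [NumberField F] in
theorem trF_eq_nMat (t : F) (v : InfinitePlace F → ℂ) (hv : ∀ w, v w = w.embedding t) (p : HF F) :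
    trF v p = nMat t • p := by
  funext w
  apply H3.ext
  · rw [nMat_smul_z, ← hv]
    rfl
  · rw [nMat_smul_y]
    rfl

theorem cd_tr {R B : ℝ} (hR : 1 ≤ R) (p : H3) (v : ℂ) (hp : R⁻¹ ≤ p.y) (hv : ‖v‖ ≤ B) :
    H3.cd p (tr v p) ≤ 1 + B ^ 2 * R ^ 2 := by
  have hR0 : 0 < R := by linarith
  have hpy := p.pos
  have hRy : 1 ≤ R * p.y := by
    have := mul_le_mul_of_nonneg_left hp hR0.le
    rwa [mul_inv_cancel₀ hR0.ne'] at this
  rw [H3.cd, tr_z, tr_y, div_le_iff₀ (by positivity)]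
  have h1 : ‖p.z - (p.z + v)‖ = ‖v‖ := by
    rw [show p.z - (p.z + v) = -v by ring, norm_neg]
  rw [h1]
  have h2 : ‖v‖ ^ 2 ≤ B ^ 2 := pow_le_pow_left₀ (norm_nonneg _) hv 2
  have h3 : 1 ≤ (R * p.y) ^ 2 := one_le_pow₀ hRy
  nlinarith [mul_le_mul h2 h3 zero_le_one (sq_nonneg B)]

/-- only finitely many translates contribute -/
theorem exists_support_count [IsTotallyComplex F] (hc : ∀ i, HasCompactSupport (Φ i))
    {R : ℝ} (hR : 1 ≤ R) (B : ℝ) (d : D) :
    ∃ C : ℝ, 0 ≤ C ∧ ∀ (p : HF F) (Y : ℝ),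
      (∀ w, ‖(p w).z‖ ≤ R ∧ R⁻¹ ≤ (p w).y ∧ (p w).y ≤ Y) → ∀ x' : HF F × D,
      ∃ Ψ : Finset PGL(2, F), (Ψ.card : ℝ) ≤ C * (1 + Y) ^ (cA F) ∧
        ∀ v : InfinitePlace F → ℂ, ‖v‖ ≤ B → ∀ g, g ∉ Ψ →
          ∀ i, Φ i (cds (trF v p) (g • x').1) * (κ i).κ d (g • x').2 = 0 := by
  classical
  choose Rb hRb1 hRb using fun i => exists_bound_of_compact (hc i)
  set R₁ : ℝ := ∑ i, Rb i with hR₁
  have hle : ∀ i, Rb i ≤ R₁ := fun i =>
    Finset.single_le_sum (f := Rb) (fun j _ => zero_le_one.trans (hRb1 j)) (Finset.mem_univ i)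
  set S : Finset D := Finset.univ.biUnion fun i => ((κ i).finite d).toFinset with hS
  obtain ⟨C, hC0, hC⟩ := exists_near_count (F := F) S hR (2 * (1 + B ^ 2 * R ^ 2) * R₁)
  refine ⟨C, hC0, fun p Y hp x' => ?_⟩
  obtain ⟨Ψ, hΨ, hmem⟩ := hC p Y hp x'
  refine ⟨Ψ, hΨ, fun v hv g hg i => ?_⟩
  by_contra hne
  apply hg
  have h1 : Φ i (cds (trF v p) (g • x').1) ≠ 0 := left_ne_zero_of_mul hne
  have h2 : (κ i).κ d (g • x').2 ≠ 0 := right_ne_zero_of_mul hne
  apply hmem
  · intro w
    have h3 := H3.cd_triangle (p w) (tr (v w) (p w)) ((g • x'.1) w)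
    have h4 := cd_tr hR (p w) (v w) (hp w).2.1 ((norm_le_pi_norm v w).trans hv)
    have h5 : H3.cd (tr (v w) (p w)) ((g • x'.1) w) ≤ R₁ :=
      ((le_abs_self _).trans (hRb i _ h1 w)).trans (hle i)
    have h6 := H3.one_le_cd (p w) (tr (v w) (p w))
    have h7 := H3.one_le_cd (tr (v w) (p w)) ((g • x'.1) w)
    refine h3.trans ?_
    gcongr
  · rw [hS, Finset.mem_biUnion]
    exact ⟨i, Finset.mem_univ _, by rw [Set.Finite.mem_toFinset]; exact h2⟩

omit [Fintype I] in
theorem continuous_term (hΦ : ∀ i, ContDiff ℝ ∞ (Φ i)) (i : I) (p q : HF F) (c : ℂ) :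
    Continuous fun v : InfinitePlace F → ℂ => Φ i (cds (trF v p) q) * c := by
  refine Continuous.mul ?_ continuous_const
  refine (hΦ i).continuous.comp ?_
  refine continuous_pi fun w => ?_
  simp only [cds, H3.cd, trF, tr_z, tr_y]
  refine Continuous.div_const ?_ _
  refine Continuous.add (Continuous.add ?_ continuous_const) continuous_const
  refine (Continuous.norm ?_).pow 2
  exact (continuous_const.add (continuous_apply w)).sub continuous_const

theorem autK_eq_sum (Ψ : Finset PGL(2, F)) (x x' : HF F × D)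
    (h : ∀ g, g ∉ Ψ → ∀ i, Φ i (cds x.1 (g • x').1) * (κ i).κ x.2 (g • x').2 = 0) :
    autK (famKer Φ κ) x x' =
      ∑ g ∈ Ψ, ∑ i, Φ i (cds x.1 (g • x').1) * (κ i).κ x.2 (g • x').2 := by
  rw [autK, tsum_eq_sum (s := Ψ)]
  · rfl
  · intro g hg
    rw [famKer]
    exact Finset.sum_eq_zero fun i _ => h g hg i

/-- the bounds of a point of the product -/
theorem exists_region (p : HF F) (B : ℝ) : ∃ (R Y : ℝ), 1 ≤ R ∧ B ≤ R ∧
    ∀ w, ‖(p w).z‖ ≤ R ∧ R⁻¹ ≤ (p w).y ∧ (p w).y ≤ Y := by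
  classical
  have h1 : ∀ w, 0 ≤ ‖(p w).z‖ + (p w).y⁻¹ := fun w =>
    add_nonneg (norm_nonneg _) (inv_nonneg.mpr (p w).pos.le)
  refine ⟨1 + |B| + ∑ w, (‖(p w).z‖ + (p w).y⁻¹), ∑ w, (p w).y, ?_, ?_, fun w => ⟨?_, ?_, ?_⟩⟩
  · have := Finset.sum_nonneg fun w (_ : w ∈ Finset.univ) => h1 w
    have := abs_nonneg B
    linarith
  · have := Finset.sum_nonneg fun w (_ : w ∈ Finset.univ) => h1 w
    have := le_abs_self B
    linarith
  · have h2 : ‖(p w).z‖ + (p w).y⁻¹ ≤ ∑ w, (‖(p w).z‖ + (p w).y⁻¹) :=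
      Finset.single_le_sum (f := fun w => ‖(p w).z‖ + (p w).y⁻¹)
      (fun w _ => h1 w) (Finset.mem_univ w)
    have h3 : 0 ≤ (p w).y⁻¹ := inv_nonneg.mpr (p w).pos.le
    have := abs_nonneg B
    linarith
  · have h2 : ‖(p w).z‖ + (p w).y⁻¹ ≤ ∑ w, (‖(p w).z‖ + (p w).y⁻¹) :=
      Finset.single_le_sum (f := fun w => ‖(p w).z‖ + (p w).y⁻¹)
      (fun w _ => h1 w) (Finset.mem_univ w)
    have h3 := norm_nonneg (p w).z
    have h4 := abs_nonneg B
    rw [inv_le_comm₀ _ (p w).pos]
    · linarith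
    · have := Finset.sum_nonneg fun w (_ : w ∈ Finset.univ) => h1 w
      linarith
  · exact Finset.single_le_sum (f := fun w => (p w).y) (fun w _ => (p w).pos.le)
      (Finset.mem_univ w)

theorem continuous_autK [IsTotallyComplex F] (hΦ : ∀ i, ContDiff ℝ ∞ (Φ i))
    (hc : ∀ i, HasCompactSupport (Φ i)) (p : HF F) (d : D) (x' : HF F × D) :
    Continuous fun v : InfinitePlace F → ℂ => autK (famKer Φ κ) (trF v p, d) x' := by
  rw [continuous_iff_continuousAt]
  intro v₀
  obtain ⟨R, Y, hR1, -, hreg⟩ := exists_region p 0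
  obtain ⟨C, -, hC⟩ := exists_support_count (κ := κ) hc hR1 (‖v₀‖ + 1) d
  obtain ⟨Ψ, -, hΨ⟩ := hC p Y hreg x'
  have hcont : Continuous fun v : InfinitePlace F → ℂ =>
      ∑ g ∈ Ψ, ∑ i, Φ i (cds (trF v p) (g • x').1) * (κ i).κ d (g • x').2 :=
    continuous_finsetSum _ fun g _ => continuous_finsetSum _ fun i _ =>
      continuous_term hΦ i p _ _
  refine hcont.continuousAt.congr ?_
  filter_upwards [Metric.ball_mem_nhds v₀ one_pos] with v hv
  rw [autK_eq_sum Ψ]
  intro g hg i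
  refine hΨ v ?_ g hg i
  rw [mem_ball_iff_norm] at hv
  have := norm_add_le v₀ (v - v₀)
  rw [add_sub_cancel] at this
  linarith

theorem diffs_mul_const {V : Type*} [AddCommGroup V] (f : V → ℂ) (c : ℂ) (l : List V) (v : V) :
    diffs l (fun v => f v * c) v = diffs l f v * c := by
  induction l generalizing v with
  | nil => rfl
  | cons a l ih =>
    rw [diffs_cons, diffs_cons, diff_apply, diff_apply, ih, ih]
    ring

/-- **Automorphic kernels whose mean over the unipotent directions is zero are bounded.** -/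
theorem exists_bound_of_mean_zero [IsTotallyComplex F] (hΦ : ∀ i, ContDiff ℝ ∞ (Φ i))
    (hc : ∀ i, HasCompactSupport (Φ i)) {R : ℝ} (hR : 1 ≤ R) (d : D)
    {ι : Type*} [Fintype ι] (b : Basis ι ℝ (InfinitePlace F → ℂ))
    (hb : ∀ i, ∃ t ∈ trans F d, ∀ w : InfinitePlace F, b i w = w.embedding t)
    (h0 : ∀ p ∈ Siegel F R, ∀ x' : HF F × D, ∫ v in ZSpan.fundamentalDomain b,
      autK (famKer Φ κ) (trF v p, d) x' = 0) :
    ∃ C : ℝ, ∀ p ∈ Siegel F R, ∀ x' : HF F × D, ‖autK (famKer Φ κ) (p, d) x'‖ ≤ C := by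
  classical
  obtain ⟨B₀, hB₀⟩ := (ZSpan.fundamentalDomain_isBounded b).exists_norm_le
  set B := max B₀ 0 with hB
  have hB0 : 0 ≤ B := le_max_right _ _
  have hBP : ∀ w ∈ ZSpan.fundamentalDomain b, ‖w‖ ≤ B := fun w hw =>
    (hB₀ w hw).trans (le_max_left _ _)
  have hR0 : 0 < R := by linarith
  set M := cA F with hM
  obtain ⟨Cn, hCn0, hCn⟩ := exists_support_count (κ := κ) hc hR (M * B) d
  choose Cd hCd0 hCd using fun i => exists_diffs_bound (hΦ i) (hc i) M
  -- bound for the finite part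
  have hκ : ∀ i, ∃ m : ℝ, 0 ≤ m ∧ ∀ d', ‖(κ i).κ d d'‖ ≤ m := by
    intro i
    refine ⟨∑ d' ∈ ((κ i).finite d).toFinset, ‖(κ i).κ d d'‖,
      Finset.sum_nonneg fun _ _ => norm_nonneg _, fun d' => ?_⟩
    by_cases hd' : (κ i).κ d d' = 0
    · rw [hd', norm_zero]
      exact Finset.sum_nonneg fun _ _ => norm_nonneg _
    · exact Finset.single_le_sum (f := fun d' => ‖(κ i).κ d d'‖) (fun _ _ => norm_nonneg _)
        (by rw [Set.Finite.mem_toFinset]; exact hd')
  choose m hm0 hm using hκ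
  refine ⟨Cn * (1 + R) ^ M * (∑ i, m i * (Cd i * B ^ M * R ^ M)), fun p hp x' => ?_⟩
  -- the height
  obtain ⟨w₀, -, hw₀⟩ := Finset.exists_max_image (Finset.univ : Finset (InfinitePlace F))
    (fun w => (p w).y) Finset.univ_nonempty
  set Y := (p w₀).y with hY
  have hY0 : 0 < Y := (p w₀).pos
  have hYR : R⁻¹ ≤ Y := (hp w₀).2.1
  have hreg : ∀ w, ‖(p w).z‖ ≤ R ∧ R⁻¹ ≤ (p w).y ∧ (p w).y ≤ Y := fun w =>
    ⟨(hp w).1, (hp w).2.1, hw₀ w (Finset.mem_univ w)⟩
  have hlow : ∀ w, Y / R ≤ (p w).y := by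
    intro w
    rw [div_le_iff₀ hR0, mul_comm]
    exact (hp w₀).2.2 w
  obtain ⟨Ψ, hΨc, hΨ⟩ := hCn p Y hreg x'
  set f : (InfinitePlace F → ℂ) → ℂ := fun v => autK (famKer Φ κ) (trF v p, d) x' with hf
  have hfc : Continuous f := continuous_autK hΦ hc p d x'
  have hper : ∀ v, ∀ l ∈ Submodule.span ℤ (Set.range b), f (l + v) = f v := by
    intro v l hl
    have hex : ∃ t ∈ trans F d, ∀ w : InfinitePlace F, l w = w.embedding t := by
      induction hl using Submodule.span_induction with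
      | mem x hx =>
        obtain ⟨i, rfl⟩ := hx
        exact hb i
      | zero => exact ⟨0, zero_mem _, fun w => by simp⟩
      | add x y _ _ hx hy =>
        obtain ⟨t, ht, hxt⟩ := hx
        obtain ⟨u, hu, hyu⟩ := hy
        exact ⟨t + u, add_mem ht hu, fun w => by rw [Pi.add_apply, hxt, hyu, map_add]⟩
      | smul a x _ hx =>
        obtain ⟨t, ht, hxt⟩ := hx
        exact ⟨a • t, zsmul_mem ht a, fun w => by
          rw [Pi.smul_apply, hxt, map_zsmul]⟩
    obtain ⟨t, ht, hlt⟩ := hex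
    have e : ((trF (l + v) p, d) : HF F × D) =
        (ProjGenLinGroup.mk (nMat t) : PGL(2, F)) • ((trF v p, d) : HF F × D) := by
      refine Prod.ext ?_ ?_
      · show trF (l + v) p = nMat t • trF v p
        rw [← trF_eq_nMat t l hlt, trF_trF, add_comm]
      · exact (mem_trans.mp ht).symm
    rw [hf]
    simp only
    rw [e]
    exact autK_smul_left _ famKer_smul _ _ _
  have hbound := norm_le_of_diffs (b := b) volume M (C := Cn * (1 + R) ^ M *
    (∑ i, m i * (Cd i * B ^ M * R ^ M))) 0 f hfc hper (h0 p hp x') ?_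
  · have e : f 0 = autK (famKer Φ κ) (p, d) x' := by
      rw [hf]
      simp only
      rw [trF_zero]
    rwa [e] at hbound
  · intro l hl hlP
    have hnorm : ∀ w ∈ l, ‖w‖ ≤ B := fun w hw => hBP w (hlP w hw)
    have hsub : ∀ s : List (InfinitePlace F → ℂ), s.Sublist l → ‖s.sum‖ ≤ M * B := by
      intro s hs
      have h1 : ‖s.sum‖ ≤ s.length * B := by
        have h2 : ∀ w ∈ s, ‖w‖ ≤ B := fun w hw => hnorm w (hs.subset hw)
        clear hs
        induction s with
        | nil => simp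
        | cons a s ih =>
          rw [List.sum_cons, List.length_cons]
          have h3 := ih fun w hw => h2 w (List.mem_cons_of_mem _ hw)
          have h4 := h2 a List.mem_cons_self
          have h5 := norm_add_le a s.sum
          push_cast
          linarith
      have h2 : (s.length : ℝ) ≤ M := by
        have := hs.length_le
        rw [hl] at this
        exact_mod_cast this
      exact h1.trans (mul_le_mul_of_nonneg_right h2 hB0)
    have e : diffs l f 0 = ∑ g ∈ Ψ, ∑ i, diffs l (fun v : InfinitePlace F → ℂ =>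
        Φ i (cds (trF v p) (g • x').1)) 0 * (κ i).κ d (g • x').2 := by
      rw [diffs_congr (g := fun v => ∑ g ∈ Ψ, ∑ i, Φ i (cds (trF v p) (g • x').1) *
        (κ i).κ d (g • x').2) l 0]
      · rw [diffs_sum]
        refine Finset.sum_congr rfl fun g _ => ?_
        rw [diffs_sum]
        refine Finset.sum_congr rfl fun i _ => ?_
        rw [diffs_mul_const]
      · intro s hs
        rw [zero_add, hf]
        simp only
        rw [autK_eq_sum Ψ]
        intro g hg i
        exact hΨ _ (hsub s hs) g hg i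
    rw [e]
    have hprod : (l.map (fun w => ‖w‖)).prod ≤ B ^ M := by
      rw [← hl]
      clear hl hlP hsub e
      induction l with
      | nil => simp
      | cons a l ih =>
        rw [List.map_cons, List.prod_cons, List.length_cons, pow_succ']
        refine mul_le_mul (hnorm a List.mem_cons_self)
          (ih fun w hw => hnorm w (List.mem_cons_of_mem _ hw)) ?_ hB0
        apply List.prod_nonneg
        intro b hb
        obtain ⟨w, -, rfl⟩ := List.mem_map.mp hb
        exact norm_nonneg _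
    have hterm : ∀ g ∈ Ψ, ‖∑ i, diffs l (fun v : InfinitePlace F → ℂ =>
        Φ i (cds (trF v p) (g • x').1)) 0 * (κ i).κ d (g • x').2‖ ≤
          ∑ i, m i * (Cd i * B ^ M * R ^ M) / Y ^ M := by
      intro g _
      refine (norm_sum_le _ _).trans (Finset.sum_le_sum fun i _ => ?_)
      rw [norm_mul]
      have h1 := hCd i p (g • x').1 (Y / R) (by positivity) hlow l hl 0
      have h2 : Cd i * (l.map (fun w => ‖w‖)).prod / (Y / R) ^ M ≤
          Cd i * B ^ M * R ^ M / Y ^ M := by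
        rw [div_pow, div_div_eq_mul_div]
        have := hCd0 i
        gcongr
      calc _ ≤ (Cd i * B ^ M * R ^ M / Y ^ M) * m i :=
            mul_le_mul (h1.trans h2) (hm i _) (norm_nonneg _) (by
              have := hCd0 i
              positivity)
        _ = _ := by ring
    refine (norm_sum_le _ _).trans ((Finset.sum_le_sum hterm).trans ?_)
    rw [Finset.sum_const, nsmul_eq_mul, ← Finset.sum_div]
    have hS0 : 0 ≤ ∑ i, m i * (Cd i * B ^ M * R ^ M) := Finset.sum_nonneg fun i _ => by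
      have := hCd0 i
      have := hm0 i
      positivity
    have h1Y : (1 + Y) ≤ (1 + R) * Y := by
      have : 1 ≤ R * Y := by
        have := mul_le_mul_of_nonneg_left hYR hR0.le
        rwa [mul_inv_cancel₀ hR0.ne'] at this
      linarith
    calc (Ψ.card : ℝ) * ((∑ i, m i * (Cd i * B ^ M * R ^ M)) / Y ^ M)
        ≤ (Cn * (1 + Y) ^ M) * ((∑ i, m i * (Cd i * B ^ M * R ^ M)) / Y ^ M) := by
          gcongr
      _ ≤ (Cn * ((1 + R) * Y) ^ M) * ((∑ i, m i * (Cd i * B ^ M * R ^ M)) / Y ^ M) := by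
          gcongr
      _ = _ := by
          generalize (∑ i, m i * (Cd i * B ^ M * R ^ M)) = S
          rw [mul_pow]
          field_simp

end Fermat.Agent.LT.Bd
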