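import Fermat.Agent.LT.Sp.Def

set_option autoImplicit false

/-! # Counting lattice points in the unit group of a cusp neighbourhood -/

namespace Fermat.Agent.LT.Bd

open NumberField Module Matrix
open scoped MatrixGroups

section Integers

theorem exists_card_int (F : Type*) [Field F] [NumberField F] : ∃ (C : ℝ) (n : ℕ), 1 ≤ C ∧
    ∀ T : ℝ, 1 ≤ T → ∃ Φ : Finset (𝓞 F), (Φ.card : ℝ) ≤ C * T ^ n ∧
      ∀ x : 𝓞 F, (∀ w : InfinitePlace F, ‖w.embedding (x : F)‖ ≤ T) → x ∈ Φ := by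
  classical
  set b := canonicalEmbedding.latticeBasis F with hb
  set e := b.equivFunL with he
  set C₀ : ℝ := ‖(e : ((F →+* ℂ) → ℂ) →L[ℂ] (Free.ChooseBasisIndex ℤ (𝓞 F) → ℂ))‖ + 1 with hC₀
  have hC₀1 : 1 ≤ C₀ := by
    rw [hC₀]
    linarith [norm_nonneg (e : ((F →+* ℂ) → ℂ) →L[ℂ] (Free.ChooseBasisIndex ℤ (𝓞 F) → ℂ))]
  refine ⟨(3 * C₀) ^ Fintype.card (Free.ChooseBasisIndex ℤ (𝓞 F)),
    Fintype.card (Free.ChooseBasisIndex ℤ (𝓞 F)), one_le_pow₀ (by linarith), fun T hT => ?_⟩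
  set K : ℤ := ⌊C₀ * T⌋ with hK
  have hCT : 1 ≤ C₀ * T := one_le_mul_of_one_le_of_one_le hC₀1 hT
  have hK0 : 0 ≤ K := Int.floor_nonneg.mpr (by linarith)
  refine ⟨(Fintype.piFinset fun _ : Free.ChooseBasisIndex ℤ (𝓞 F) => Finset.Icc (-K) K).image
    (fun n => ∑ i, n i • RingOfIntegers.basis F i), ?_, ?_⟩
  · have h1 := (Finset.card_image_le (s := Fintype.piFinset fun _ :
      Free.ChooseBasisIndex ℤ (𝓞 F) => Finset.Icc (-K) K)
      (f := fun n => ∑ i, n i • RingOfIntegers.basis F i))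
    rw [Fintype.card_piFinset, Finset.prod_const, Int.card_Icc, Finset.card_univ] at h1
    have h2 : ((K + 1 - -K).toNat : ℝ) ≤ 3 * C₀ * T := by
      have h3 : ((K + 1 - -K).toNat : ℝ) = ((K + 1 - -K : ℤ) : ℝ) := by
        have := Int.toNat_of_nonneg (a := K + 1 - -K) (by omega)
        exact_mod_cast congrArg (Int.cast (R := ℝ)) this
      rw [h3]
      push_cast
      have h4 : (K : ℝ) ≤ C₀ * T := Int.floor_le _
      linarith
    calc _ ≤ (((K + 1 - -K).toNat ^ Fintype.card (Free.ChooseBasisIndex ℤ (𝓞 F)) : ℕ) : ℝ) := by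
          exact_mod_cast h1
      _ ≤ (3 * C₀ * T) ^ Fintype.card (Free.ChooseBasisIndex ℤ (𝓞 F)) := by
          push_cast
          exact pow_le_pow_left₀ (by positivity) h2 _
      _ = _ := by rw [mul_pow (3 * C₀)]
  · intro x hx
    rw [Finset.mem_image]
    refine ⟨fun i => (RingOfIntegers.basis F).repr x i, ?_, (RingOfIntegers.basis F).sum_repr x⟩
    rw [Fintype.mem_piFinset]
    intro i
    have h1 : ‖canonicalEmbedding F (x : F)‖ ≤ T := by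
      rw [pi_norm_le_iff_of_nonneg (by linarith)]
      intro φ
      have h2 := hx (InfinitePlace.mk φ)
      rw [InfinitePlace.norm_embedding_eq, InfinitePlace.apply] at h2
      exact h2
    have h2 : ‖e (canonicalEmbedding F (x : F))‖ ≤ C₀ * T := by
      refine ((e : ((F →+* ℂ) → ℂ) →L[ℂ] (Free.ChooseBasisIndex ℤ (𝓞 F) → ℂ)).le_opNorm _).trans ?_
      have : ‖(e : ((F →+* ℂ) → ℂ) →L[ℂ] (Free.ChooseBasisIndex ℤ (𝓞 F) → ℂ))‖ ≤ C₀ := by rw [hC₀]; linarith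
      exact mul_le_mul this h1 (norm_nonneg _) (by linarith)
    have h3 : e (canonicalEmbedding F (x : F)) i = ((RingOfIntegers.basis F).repr x i : ℂ) := by
      have h4 : e (canonicalEmbedding F (x : F)) i = b.repr (canonicalEmbedding F (x : F)) i := rfl
      rw [h4, hb, canonicalEmbedding.integralBasis_repr_apply,
        show (x : F) = algebraMap (𝓞 F) F x from rfl, integralBasis_repr_apply]
      simp
    have h5 : ‖(((RingOfIntegers.basis F).repr x i : ℤ) : ℂ)‖ ≤ C₀ * T := by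
      rw [← h3]
      exact (norm_le_pi_norm _ i).trans h2
    rw [Complex.norm_intCast] at h5
    rw [Finset.mem_Icc, ← abs_le, hK, Int.le_floor]
    exact_mod_cast h5

/-- the number of integral matrices with bounded entries -/
theorem exists_card_matrix (F : Type*) [Field F] [NumberField F] : ∃ (n : ℕ) (C : ℝ), 1 ≤ C ∧
    ∀ T : ℝ, 1 ≤ T → ∃ Φ : Finset (Matrix (Fin 2) (Fin 2) (𝓞 F)), (Φ.card : ℝ) ≤ C * T ^ n ∧
      ∀ m : Matrix (Fin 2) (Fin 2) (𝓞 F),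
        (∀ (w : InfinitePlace F) i j, ‖w.embedding (m i j : F)‖ ≤ T) → m ∈ Φ := by
  classical
  obtain ⟨C, n, hC1, hC⟩ := exists_card_int F
  refine ⟨n * 4, C ^ 4, one_le_pow₀ hC1, fun T hT => ?_⟩
  obtain ⟨Φ, hΦ, hmem⟩ := hC T hT
  refine ⟨(Φ ×ˢ Φ ×ˢ Φ ×ˢ Φ).image (fun q => !![q.1, q.2.1; q.2.2.1, q.2.2.2]), ?_, ?_⟩
  · have h1 := Finset.card_image_le (s := Φ ×ˢ Φ ×ˢ Φ ×ˢ Φ)
      (f := fun q : 𝓞 F × 𝓞 F × 𝓞 F × 𝓞 F => !![q.1, q.2.1; q.2.2.1, q.2.2.2])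
    rw [Finset.card_product, Finset.card_product, Finset.card_product] at h1
    calc _ ≤ ((Φ.card * (Φ.card * (Φ.card * Φ.card)) : ℕ) : ℝ) := by exact_mod_cast h1
      _ = (Φ.card : ℝ) ^ 4 := by push_cast; ring
      _ ≤ (C * T ^ n) ^ 4 := pow_le_pow_left₀ (by positivity) hΦ 4
      _ = _ := by rw [mul_pow, pow_mul]
  · intro m hm
    rw [Finset.mem_image]
    refine ⟨(m 0 0, m 0 1, m 1 0, m 1 1), ?_, ?_⟩
    · simp only [Finset.mem_product]
      exact ⟨hmem _ fun w => hm w 0 0, hmem _ fun w => hm w 0 1, hmem _ fun w => hm w 1 0,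
        hmem _ fun w => hm w 1 1⟩
    · exact (Matrix.eta_fin_two m).symm

/-- the exponent of the polynomial bound -/
noncomputable def cA (F : Type*) [Field F] [NumberField F] : ℕ := (exists_card_matrix F).choose

end Integers

section Entries

theorem sq_le_bound {a K t : ℝ} (hK : 0 ≤ K) (ht : 0 ≤ t) (h : a ^ 2 ≤ K * t ^ 2) :
    a ≤ (K + 1) * t := by
  by_contra hcon
  push Not at hcon
  have h1 : 0 ≤ (K + 1) * t := by positivity
  have h2 : ((K + 1) * t) ^ 2 < a ^ 2 := by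
    apply pow_lt_pow_left₀ hcon h1 (by norm_num)
  nlinarith [mul_nonneg hK (sq_nonneg t), mul_nonneg (mul_nonneg hK hK) (sq_nonneg t)]

theorem den_entries {R X : ℝ} (p : H3) (c d : ℂ) (hz : ‖p.z‖ ≤ R) (hRy : 1 ≤ R * p.y)
    (h : p.den c d ≤ X) :
    ‖c‖ ^ 2 ≤ 2 * (1 + R ^ 2) * (1 + R ^ 2) * X ∧ ‖d‖ ^ 2 ≤ 2 * (1 + R ^ 2) * (1 + R ^ 2) * X := by
  have hX : 0 ≤ X := (p.den_nonneg c d).trans h
  rw [H3.den] at h
  have h1 : ‖c‖ ^ 2 * p.y ^ 2 ≤ X := by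
    linarith [sq_nonneg ‖c * p.z + d‖]
  have h2 : ‖c * p.z + d‖ ^ 2 ≤ X := by
    have : 0 ≤ ‖c‖ ^ 2 * p.y ^ 2 := by positivity
    linarith
  have h3 : ‖c‖ ^ 2 ≤ R ^ 2 * X := by
    calc ‖c‖ ^ 2 ≤ ‖c‖ ^ 2 * (R * p.y) ^ 2 := by
          have : 1 ≤ (R * p.y) ^ 2 := one_le_pow₀ hRy
          exact le_mul_of_one_le_right (sq_nonneg _) this
      _ = R ^ 2 * (‖c‖ ^ 2 * p.y ^ 2) := by ring
      _ ≤ _ := mul_le_mul_of_nonneg_left h1 (sq_nonneg R)
  have f1 : R ^ 2 ≤ 2 * (1 + R ^ 2) * (1 + R ^ 2) := by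
    have := sq_nonneg R
    nlinarith
  have f2 : 2 + 2 * (R ^ 2 * R ^ 2) ≤ 2 * (1 + R ^ 2) * (1 + R ^ 2) := by
    have := sq_nonneg R
    nlinarith
  constructor
  · exact h3.trans (mul_le_mul_of_nonneg_right f1 hX)
  · have h4 : ‖d‖ ≤ ‖c * p.z + d‖ + ‖c‖ * ‖p.z‖ := by
      have : d = (c * p.z + d) - c * p.z := by ring
      calc ‖d‖ = ‖(c * p.z + d) - c * p.z‖ := by rw [← this]
        _ ≤ ‖c * p.z + d‖ + ‖c * p.z‖ := norm_sub_le _ _
        _ = _ := by rw [norm_mul]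
    have h5 : ‖d‖ ^ 2 ≤ 2 * ‖c * p.z + d‖ ^ 2 + 2 * (‖c‖ * ‖p.z‖) ^ 2 := by
      have h6 : ‖d‖ ^ 2 ≤ (‖c * p.z + d‖ + ‖c‖ * ‖p.z‖) ^ 2 := by gcongr
      linarith [sq_nonneg (‖c * p.z + d‖ - ‖c‖ * ‖p.z‖)]
    have h7 : (‖c‖ * ‖p.z‖) ^ 2 ≤ R ^ 2 * X * R ^ 2 := by
      rw [mul_pow]
      have : ‖p.z‖ ^ 2 ≤ R ^ 2 := pow_le_pow_left₀ (norm_nonneg _) hz 2
      exact mul_le_mul h3 this (by positivity) (by positivity)
    refine le_trans ?_ (mul_le_mul_of_nonneg_right f2 hX)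
    linarith

/-- the entries of a matrix moving a point high in the cusp by a bounded distance -/
theorem exists_entry_bound (R R' C : ℝ) (hR : 1 ≤ R) (hR' : 1 ≤ R') (hC : 1 ≤ C) :
    ∃ K : ℝ, 1 ≤ K ∧ ∀ (p : H3) (g : GL (Fin 2) ℂ), ‖p.z‖ ≤ R → R⁻¹ ≤ p.y →
      H3.cd p (g • p) ≤ R' → ‖(g : Matrix (Fin 2) (Fin 2) ℂ).det‖ ≤ C →
        ∀ i j, ‖g i j‖ ≤ K * (1 + p.y) := by
  set L : ℝ := 2 * R' * C with hL
  have hL1 : 1 ≤ L := by
    have : 1 ≤ R' * C := one_le_mul_of_one_le_of_one_le hR' hC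
    rw [hL]; linarith
  -- bound for both rows
  set M : ℝ := 2 * L * (R + 2 * R') ^ 2 with hM
  have hRR : 1 ≤ (R + 2 * R') ^ 2 := one_le_pow₀ (by linarith)
  have hM1 : 1 ≤ M := by
    rw [hM]
    nlinarith
  have hLM : L ≤ M := by
    rw [hM]
    nlinarith
  set K₀ : ℝ := 2 * M * (1 + R ^ 2) * (1 + R ^ 2) with hK₀
  have hK₀0 : 0 ≤ K₀ := by positivity
  refine ⟨K₀ + 1, by linarith, fun p g hz hy hcd hdet => ?_⟩
  have hp := p.pos
  have hR0 : 0 < R := by linarith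
  have hRy : 1 ≤ R * p.y := by
    have := mul_le_mul_of_nonneg_left hy hR0.le
    rwa [mul_inv_cancel₀ hR0.ne'] at this
  -- rows
  have hrow1 : p.den (g 1 0) (g 1 1) ≤ M * (1 + p.y) ^ 2 := by
    have h1 := H3.y_le (g • p) p
    rw [H3.cd_symm] at h1
    have hD := p.den_pos (H3.row_ne g 1)
    rw [H3.smul_y] at h1
    have h2 : p.den (g 1 0) (g 1 1) ≤ 2 * R' * C := by
      have h3 : p.y * p.den (g 1 0) (g 1 1) ≤
          2 * H3.cd p (g • p) * (‖(g : Matrix (Fin 2) (Fin 2) ℂ).det‖ * p.y) := by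
        rw [← mul_div_assoc, le_div_iff₀ hD] at h1
        exact h1
      have h4 : 2 * H3.cd p (g • p) * (‖(g : Matrix (Fin 2) (Fin 2) ℂ).det‖ * p.y) ≤
          2 * R' * (C * p.y) := by
        gcongr
      have h5 : p.y * p.den (g 1 0) (g 1 1) ≤ p.y * (2 * R' * C) := by linarith
      exact le_of_mul_le_mul_left h5 hp
    have h6 : 1 ≤ (1 + p.y) ^ 2 := one_le_pow₀ (by linarith)
    calc p.den (g 1 0) (g 1 1) ≤ L := h2
      _ ≤ M * 1 := by linarith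
      _ ≤ M * (1 + p.y) ^ 2 := mul_le_mul_of_nonneg_left h6 (by linarith)
  have hrow0 : p.den (g 0 0) (g 0 1) ≤ M * (1 + p.y) ^ 2 := by
    have hq := H3.q_smul_eq g p 1 0
    simp only [one_mul, zero_mul, add_zero] at hq
    have hdet0 : 0 < ‖(g : Matrix (Fin 2) (Fin 2) ℂ).det‖ := norm_pos_iff.mpr g.det_ne_zero
    set p' := g • p with hp'
    have hp'0 := p'.pos
    have e1 : p.den (g 0 0) (g 0 1) = ‖(g : Matrix (Fin 2) (Fin 2) ℂ).det‖ * p.y *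
        ((‖p'.z‖ ^ 2 + p'.y ^ 2) / p'.y) := by
      have h1 : p'.q 1 0 = (‖p'.z‖ ^ 2 + p'.y ^ 2) / p'.y := by
        rw [H3.q, H3.den]; simp
      rw [← h1, hq, H3.q]
      field_simp
    have h2 : p'.y ≤ 2 * R' * p.y := by
      have := H3.y_le p p'
      calc p'.y ≤ 2 * H3.cd p p' * p.y := this
        _ ≤ _ := by gcongr
    have h3 : p.y ≤ 2 * R' * p'.y := by
      have := H3.y_le p' p
      rw [H3.cd_symm] at this
      calc p.y ≤ 2 * H3.cd p p' * p'.y := this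
        _ ≤ _ := by gcongr
    have h4 : ‖p.z - p'.z‖ ^ 2 ≤ (2 * R' * p.y) ^ 2 := by
      calc ‖p.z - p'.z‖ ^ 2 ≤ 2 * H3.cd p p' * p.y * p'.y := H3.z_le p p'
        _ ≤ 2 * R' * p.y * (2 * R' * p.y) := by gcongr
        _ = _ := by ring
    have h5 : ‖p.z - p'.z‖ ≤ 2 * R' * p.y := abs_le_of_sq_le_sq' h4 (by positivity) |>.2
    have h6 : ‖p'.z‖ ≤ R + 2 * R' * p.y := by
      have h7 : ‖p'.z‖ ≤ ‖p.z‖ + ‖p.z - p'.z‖ := by
        have := norm_sub_norm_le p'.z p.z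
        rw [norm_sub_rev] at this
        linarith
      linarith
    have h8 : ‖p'.z‖ ^ 2 + p'.y ^ 2 ≤ 2 * ((R + 2 * R') * (1 + p.y)) ^ 2 := by
      have h9 : ‖p'.z‖ ≤ (R + 2 * R') * (1 + p.y) := by nlinarith
      have h10 : p'.y ≤ (R + 2 * R') * (1 + p.y) := by nlinarith
      have h11 : ‖p'.z‖ ^ 2 ≤ ((R + 2 * R') * (1 + p.y)) ^ 2 := by gcongr
      have h12 : p'.y ^ 2 ≤ ((R + 2 * R') * (1 + p.y)) ^ 2 := by gcongr
      linarith
    rw [e1]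
    calc ‖(g : Matrix (Fin 2) (Fin 2) ℂ).det‖ * p.y * ((‖p'.z‖ ^ 2 + p'.y ^ 2) / p'.y)
        = ‖(g : Matrix (Fin 2) (Fin 2) ℂ).det‖ * (‖p'.z‖ ^ 2 + p'.y ^ 2) * (p.y / p'.y) := by
          ring
      _ ≤ C * (2 * ((R + 2 * R') * (1 + p.y)) ^ 2) * (2 * R') := by
          have h13 : p.y / p'.y ≤ 2 * R' := by rw [div_le_iff₀ hp'0]; exact h3
          gcongr
      _ = _ := by rw [hM, hL]; ring
  have hent : ∀ c d : ℂ, p.den c d ≤ M * (1 + p.y) ^ 2 →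
      ‖c‖ ^ 2 ≤ K₀ * (1 + p.y) ^ 2 ∧ ‖d‖ ^ 2 ≤ K₀ * (1 + p.y) ^ 2 := by
    intro c d h
    have := den_entries p c d hz hRy h
    have f3 : K₀ * (1 + p.y) ^ 2 = 2 * (1 + R ^ 2) * (1 + R ^ 2) * (M * (1 + p.y) ^ 2) := by
      rw [hK₀]; ring
    rw [f3]
    exact this
  intro i j
  have hpy : 0 ≤ 1 + p.y := by linarith
  fin_cases i <;> fin_cases j
  · exact sq_le_bound hK₀0 hpy (hent _ _ hrow0).1
  · exact sq_le_bound hK₀0 hpy (hent _ _ hrow0).2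
  · exact sq_le_bound hK₀0 hpy (hent _ _ hrow1).1
  · exact sq_le_bound hK₀0 hpy (hent _ _ hrow1).2

end Entries

section Count

open Sp

variable {F : Type*} [Field F] [NumberField F]

/-- **Counting (crude version).** -/
theorem exists_count_of_balanced {N : ℕ} (hbal : ∃ C : ℝ, 1 ≤ C ∧ ∀ g : GL (Fin 2) F, BddDen N g →
      ∃ (a : F) (m : Matrix (Fin 2) (Fin 2) (𝓞 F)), a ≠ 0 ∧ (∀ i j, a * g i j = (m i j : F)) ∧
        ∀ w : InfinitePlace F, C⁻¹ ≤ ‖w.embedding (m.det : F)‖ ∧ ‖w.embedding (m.det : F)‖ ≤ C)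
    {R : ℝ} (hR : 1 ≤ R) (R' : ℝ) : ∃ C : ℝ, 0 ≤ C ∧ ∀ (x : HF F) (Y : ℝ),
      (∀ w, ‖(x w).z‖ ≤ R ∧ R⁻¹ ≤ (x w).y ∧ (x w).y ≤ Y) →
      ∃ Φ : Finset PGL(2, F), (Φ.card : ℝ) ≤ C * (1 + Y) ^ (cA F) ∧
        ∀ g : GL (Fin 2) F, BddDen N g → (∀ w, H3.cd (x w) ((g • x) w) ≤ R') →
          ProjGenLinGroup.mk g ∈ Φ := by
  classical
  obtain ⟨C₁, hC₁, hbal⟩ := hbal
  obtain ⟨K, hK1, hK⟩ := exists_entry_bound R (max R' 1) C₁ hR (le_max_right _ _) hC₁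
  obtain ⟨C, hC1, hC⟩ := (exists_card_matrix F).choose_spec
  refine ⟨C * K ^ (cA F), by positivity, fun x Y hx => ?_⟩
  have hY0 : 0 < Y := by
    obtain ⟨w⟩ : Nonempty (InfinitePlace F) := inferInstance
    exact (x w).pos.trans_le (hx w).2.2
  have hT : 1 ≤ K * (1 + Y) := one_le_mul_of_one_le_of_one_le hK1 (by linarith)
  obtain ⟨Φ₀, hΦ₀, hmem⟩ := hC _ hT
  refine ⟨Φ₀.image (fun m => if h : (m.map (algebraMap (𝓞 F) F)).det ≠ 0 then
    ProjGenLinGroup.mk (GeneralLinearGroup.mkOfDetNeZero _ h) else 1), ?_, ?_⟩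
  · have h1 : ((Φ₀.image (fun m => if h : (m.map (algebraMap (𝓞 F) F)).det ≠ 0 then
      ProjGenLinGroup.mk (GeneralLinearGroup.mkOfDetNeZero _ h) else 1)).card : ℝ) ≤ Φ₀.card := by
      exact_mod_cast Finset.card_image_le
    refine h1.trans (hΦ₀.trans (le_of_eq ?_))
    rw [mul_pow, ← mul_assoc, cA]
  · intro g hg hcd
    obtain ⟨a, m, ha, hm, hdet⟩ := hbal g hg
    have hmap : m.map (algebraMap (𝓞 F) F) = a • (g : Matrix (Fin 2) (Fin 2) F) := by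
      ext i j
      rw [Matrix.map_apply, Matrix.smul_apply, smul_eq_mul, hm]
    have hd0 : (m.map (algebraMap (𝓞 F) F)).det ≠ 0 := by
      rw [hmap, Matrix.det_smul]
      exact mul_ne_zero (pow_ne_zero _ ha) g.det_ne_zero
    set g' : GL (Fin 2) F := GeneralLinearGroup.scalar (Fin 2) (Units.mk0 a ha) * g with hg'
    have hg'e : (g' : Matrix (Fin 2) (Fin 2) F) = m.map (algebraMap (𝓞 F) F) := by
      rw [hg', hmap, Units.val_mul, GeneralLinearGroup.coe_scalar, Matrix.smul_eq_diagonal_mul]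
      rfl
    have hg'2 : GeneralLinearGroup.mkOfDetNeZero _ hd0 = g' := by
      apply Units.ext
      rw [hg'e]
      rfl
    have hmk : ProjGenLinGroup.mk g' = ProjGenLinGroup.mk g := by
      rw [hg', map_mul, ProjGenLinGroup.mk_scalar, one_mul]
    have hsm : g' • x = g • x := by rw [hg', mul_smul, scalar_smul_HF]
    rw [Finset.mem_image]
    refine ⟨m, ?_, ?_⟩
    · apply hmem
      intro w i j
      have hdw : ‖((embGL w g' : GL (Fin 2) ℂ) : Matrix (Fin 2) (Fin 2) ℂ).det‖ ≤ C₁ := by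
        rw [det_embGL, hg'e]
        have : (m.map (algebraMap (𝓞 F) F)).det = ((m.det : 𝓞 F) : F) := by
          rw [show m.map (algebraMap (𝓞 F) F) = (algebraMap (𝓞 F) F).mapMatrix m from rfl,
            ← RingHom.map_det]
        rw [this]
        exact (hdet w).2
      have hcdw : H3.cd (x w) (embGL w g' • x w) ≤ max R' 1 := by
        rw [← smul_HF_apply, hsm]
        exact (hcd w).trans (le_max_left _ _)
      have h1 := hK (x w) (embGL w g') (hx w).1 (hx w).2.1 hcdw hdw i j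
      rw [embGL_apply, hg'e, Matrix.map_apply] at h1
      refine h1.trans ?_
      have := (hx w).2.2
      gcongr
    · rw [dif_pos hd0, hg'2, hmk]

end Count

end Fermat.Agent.LT.Bd
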