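import Mathlib

set_option autoImplicit false

/-! # Periodic functions of mean zero are bounded by their iterated differences -/

namespace Fermat.Agent.LT.Bd

open MeasureTheory Module Pointwise

section Diff

variable {V E : Type*} [AddCommGroup V] [AddCommGroup E]

/-- the difference operator -/
def diff (w : V) (f : V → E) : V → E := fun v => f (v + w) - f v

/-- iterated differences -/
def diffs (l : List V) (f : V → E) : V → E := l.foldr diff f

@[simp] theorem diffs_nil (f : V → E) : diffs [] f = f := rfl

@[simp] theorem diffs_cons (w : V) (l : List V) (f : V → E) :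
    diffs (w :: l) f = diff w (diffs l f) := rfl

theorem diff_apply (w : V) (f : V → E) (v : V) : diff w f v = f (v + w) - f v := rfl

theorem diff_comm (w w' : V) (f : V → E) : diff w (diff w' f) = diff w' (diff w f) := by
  funext v
  simp only [diff_apply]
  rw [add_right_comm v w w']
  abel

theorem diffs_diff (l : List V) (w : V) (f : V → E) : diffs l (diff w f) = diff w (diffs l f) := by
  induction l with
  | nil => rfl
  | cons a l ih => rw [diffs_cons, diffs_cons, ih, diff_comm]

theorem diff_sum {ι : Type*} (s : Finset ι) (f : ι → V → E) (w : V) :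
    diff w (fun v => ∑ i ∈ s, f i v) = fun v => ∑ i ∈ s, diff w (f i) v := by
  funext v
  simp only [diff_apply, Finset.sum_sub_distrib]

theorem diffs_sum {ι : Type*} (s : Finset ι) (f : ι → V → E) (l : List V) :
    diffs l (fun v => ∑ i ∈ s, f i v) = fun v => ∑ i ∈ s, diffs l (f i) v := by
  induction l with
  | nil => rfl
  | cons a l ih => rw [diffs_cons, ih, diff_sum]; rfl

theorem diffs_congr {f g : V → E} (l : List V) (v : V)
    (h : ∀ s : List V, s.Sublist l → f (v + s.sum) = g (v + s.sum)) : diffs l f v = diffs l g v := by
  induction l generalizing v with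
  | nil => simpa using h [] (List.Sublist.refl _)
  | cons a l ih =>
    rw [diffs_cons, diffs_cons, diff_apply, diff_apply]
    congr 1
    · apply ih
      intro s hs
      have := h (a :: s) (hs.cons_cons a)
      rw [List.sum_cons] at this
      rwa [add_assoc]
    · apply ih
      intro s hs
      exact h s (hs.cons a)

end Diff

section Mean

variable {V : Type*} [NormedAddCommGroup V] [NormedSpace ℝ V] [FiniteDimensional ℝ V]
  [MeasurableSpace V] [BorelSpace V] (μ : Measure V) [μ.IsAddHaarMeasure]
  {ι : Type*} [Fintype ι] (b : Basis ι ℝ V)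

instance vaddInvariant_span : VAddInvariantMeasure (Submodule.span ℤ (Set.range b)) V μ where
  measure_preimage_vadd c s _ := measure_preimage_add μ (c : V) s

theorem isAddFundamentalDomain_translate (w : V) :
    IsAddFundamentalDomain (Submodule.span ℤ (Set.range b))
      (w +ᵥ ZSpan.fundamentalDomain b) μ :=
  (ZSpan.isAddFundamentalDomain b μ).vadd_of_comm w

variable {b} {E : Type*} [NormedAddCommGroup E] [NormedSpace ℝ E]

theorem setIntegral_translate {f : V → E}
    (hper : ∀ v, ∀ l ∈ Submodule.span ℤ (Set.range b), f (l + v) = f v) (w : V) :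
    ∫ v in ZSpan.fundamentalDomain b, f (v + w) ∂μ = ∫ v in ZSpan.fundamentalDomain b, f v ∂μ := by
  have h1 : ∫ v in ZSpan.fundamentalDomain b, f (v + w) ∂μ =
      ∫ v in (w +ᵥ ZSpan.fundamentalDomain b), f v ∂μ := by
    have hmp : MeasurePreserving (fun v : V => v + w) μ μ := measurePreserving_add_right μ w
    have hme : MeasurableEmbedding (fun v : V => v + w) := measurableEmbedding_addRight w
    rw [← hmp.setIntegral_preimage_emb hme f (w +ᵥ ZSpan.fundamentalDomain b)]
    have hpre : (fun v : V => v + w) ⁻¹' (w +ᵥ ZSpan.fundamentalDomain b) =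
        ZSpan.fundamentalDomain b := by
      ext v
      rw [Set.mem_preimage, Set.mem_vadd_set_iff_neg_vadd_mem, vadd_eq_add, neg_add_eq_sub,
        add_sub_cancel_right]
    rw [hpre]
  rw [h1]
  exact (isAddFundamentalDomain_translate μ b w).setIntegral_eq
    (ZSpan.isAddFundamentalDomain b μ) (fun l v => hper v l.1 l.2)

omit [NormedSpace ℝ E] in
theorem integrableOn_fd {f : V → E} (hf : Continuous f) :
    IntegrableOn f (ZSpan.fundamentalDomain b) μ :=
  (hf.continuousOn.integrableOn_compact
    (ZSpan.fundamentalDomain_isBounded b).isCompact_closure).mono_set subset_closure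

/-- **A periodic function of mean zero is bounded by its iterated differences.** -/
theorem norm_le_of_diffs [CompleteSpace E] (M : ℕ) {C : ℝ} (v : V) (f : V → E) (hf : Continuous f)
    (hper : ∀ v, ∀ l ∈ Submodule.span ℤ (Set.range b), f (l + v) = f v)
    (h0 : ∫ v in ZSpan.fundamentalDomain b, f v ∂μ = 0)
    (h : ∀ l : List V, l.length = M → (∀ w ∈ l, w ∈ ZSpan.fundamentalDomain b) →
      ‖diffs l f v‖ ≤ C) : ‖f v‖ ≤ C := by
  induction M generalizing f with
  | zero => exact h [] rfl (by simp)
  | succ M ih =>
    have key : ∀ w ∈ ZSpan.fundamentalDomain b, ‖diff w f v‖ ≤ C := by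
      intro w hw
      apply ih
      · exact (hf.comp (continuous_id.add continuous_const)).sub hf
      · intro u l hl
        rw [diff_apply, diff_apply, add_assoc, hper _ l hl, hper _ l hl]
      · have : (fun u => diff w f u) = fun u => f (u + w) - f u := rfl
        rw [show (∫ u in ZSpan.fundamentalDomain b, diff w f u ∂μ) =
          ∫ u in ZSpan.fundamentalDomain b, (f (u + w) - f u) ∂μ from rfl]
        rw [integral_sub, setIntegral_translate μ hper, sub_self]
        · exact integrableOn_fd μ (hf.comp (continuous_id.add continuous_const))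
        · exact integrableOn_fd μ hf
      · intro l hl hl'
        rw [diffs_diff, ← diffs_cons]
        apply h
        · rw [List.length_cons, hl]
        · intro u hu
          rcases List.mem_cons.mp hu with rfl | hu
          · exact hw
          · exact hl' u hu
    have hvol0 : μ (ZSpan.fundamentalDomain b) ≠ 0 := ZSpan.measure_fundamentalDomain_ne_zero b
    have hvol1 : μ (ZSpan.fundamentalDomain b) < ⊤ :=
      (ZSpan.fundamentalDomain_isBounded b).measure_lt_top
    have hint : ∫ w in ZSpan.fundamentalDomain b, diff w f v ∂μ =
        -((μ.real (ZSpan.fundamentalDomain b)) • f v) := by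
      have e1 : ∫ w in ZSpan.fundamentalDomain b, diff w f v ∂μ =
        ∫ w in ZSpan.fundamentalDomain b, (f (w + v) - f v) ∂μ := by
        congr 1
        funext w
        rw [diff_apply, add_comm]
      rw [e1, integral_sub, setIntegral_translate μ hper, h0, zero_sub, setIntegral_const]
      · exact integrableOn_fd μ (hf.comp (continuous_id.add continuous_const))
      · exact integrableOn_fd μ continuous_const
    have hb := norm_setIntegral_le_of_norm_le_const hvol1 key
    rw [hint, norm_neg, norm_smul, Real.norm_of_nonneg measureReal_nonneg] at hb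
    have hpos : 0 < μ.real (ZSpan.fundamentalDomain b) :=
      ENNReal.toReal_pos hvol0 hvol1.ne
    rw [mul_comm C] at hb
    exact le_of_mul_le_mul_left hb hpos

end Mean

end Fermat.Agent.LT.Bd
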