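import Fermat.Agent.LT.H3Dist
import Fermat.Agent.LT.Bd.MeanZero

set_option autoImplicit false

/-! # Iterated differences of smooth functions; point pair kernels high in the cusp -/

namespace Fermat.Agent.LT.Bd

open MeasureTheory Module
open scoped ContDiff

section General

variable {V E : Type*} [NormedAddCommGroup V] [NormedSpace ℝ V] [NormedAddCommGroup E]
  [NormedSpace ℝ E]

theorem diffs_differentiable {g : V → E} (hg : ContDiff ℝ ∞ g) (l : List V) :
    ContDiff ℝ ∞ (diffs l g) := by
  induction l with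
  | nil => exact hg
  | cons a l ih =>
    rw [diffs_cons]
    exact (ih.comp (contDiff_id.add contDiff_const)).sub ih

theorem fderiv_diffs {g : V → E} (hg : ContDiff ℝ ∞ g) (l : List V) (w u : V) :
    fderiv ℝ (diffs l g) u w = diffs l (fun u => fderiv ℝ g u w) u := by
  induction l generalizing u with
  | nil => rfl
  | cons a l ih =>
    have h1 : ContDiff ℝ ∞ (diffs l g) := diffs_differentiable hg l
    have hd : Differentiable ℝ (diffs l g) := h1.differentiable (by simp)
    have e : diffs (a :: l) g = fun v => diffs l g (v + a) - diffs l g v := rfl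
    rw [e]
    have hd1 : DifferentiableAt ℝ (fun v => diffs l g (v + a)) u :=
      (hd (u + a)).comp (f := fun v => v + a) u ((differentiable_id.add_const a) u)
    rw [fderiv_fun_sub hd1 (hd u), fderiv_comp_add_right]
    rw [sub_apply, ih, ih]
    rfl

/-- **Iterated differences are bounded by the derivatives.** -/
theorem norm_diffs_le {g : V → E} (hg : ContDiff ℝ ∞ g) (l : List V) {C : ℝ}
    (hC : ∀ u, ‖iteratedFDeriv ℝ l.length g u‖ ≤ C) (v : V) :
    ‖diffs l g v‖ ≤ C * (l.map (fun w => ‖w‖)).prod := by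
  induction l generalizing g C v with
  | nil =>
    have := hC v
    rw [List.length_nil, norm_iteratedFDeriv_zero] at this
    simpa using this
  | cons w l ih =>
    have hg' : ContDiff ℝ ∞ (fun u => fderiv ℝ g u w) :=
      (hg.fderiv_right (m := ∞) (by simp)).clm_apply contDiff_const
    have hb : ∀ u, ‖iteratedFDeriv ℝ l.length (fun u => fderiv ℝ g u w) u‖ ≤ ‖w‖ * C := by
      intro u
      have h1 : (fun u => fderiv ℝ g u w) =
          (ContinuousLinearMap.apply ℝ E w) ∘ (fun u => fderiv ℝ g u) := rfl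
      have h2 : ContDiff ℝ ∞ (fun u => fderiv ℝ g u) := hg.fderiv_right (m := ∞) (by simp)
      rw [h1]
      have h3 := (ContinuousLinearMap.apply ℝ E w).norm_iteratedFDeriv_comp_left
        (f := fun u => fderiv ℝ g u) (x := u) (n := l.length) (N := ∞) h2.contDiffAt
        (by exact_mod_cast le_top)
      refine h3.trans ?_
      have h4 : ‖iteratedFDeriv ℝ l.length (fun u => fderiv ℝ g u) u‖ ≤ C := by
        rw [norm_iteratedFDeriv_fderiv]
        exact hC u
      have h5 : ‖ContinuousLinearMap.apply ℝ E w‖ ≤ ‖w‖ := by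
        refine ContinuousLinearMap.opNorm_le_bound _ (norm_nonneg _) fun T => ?_
        rw [ContinuousLinearMap.apply_apply, mul_comm]
        exact T.le_opNorm w
      exact mul_le_mul h5 h4 (norm_nonneg _) (norm_nonneg _)
    have key := fun v => ih hg' hb v
    set h := diffs l g with hh
    have hdiff : Differentiable ℝ h := (diffs_differentiable hg l).differentiable (by simp)
    have e : diffs (w :: l) g v = h (v + w) - h v := rfl
    rw [e]
    have hcurve : ∀ t : ℝ, HasDerivAt (fun t : ℝ => h (v + t • w)) (fderiv ℝ h (v + t • w) w) t := by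
      intro t
      have h1 : HasDerivAt (fun t : ℝ => v + t • w) w t := by
        simpa using ((hasDerivAt_id t).smul_const w).const_add v
      exact (hdiff (v + t • w)).hasFDerivAt.comp_hasDerivAt t h1
    have hmv := norm_image_sub_le_of_norm_deriv_le_segment_01'
      (f := fun t : ℝ => h (v + t • w)) (f' := fun t => fderiv ℝ h (v + t • w) w)
      (C := ‖w‖ * C * (l.map (fun w => ‖w‖)).prod)
      (fun t _ => (hcurve t).hasDerivWithinAt) (by
        intro t _
        show ‖fderiv ℝ h (v + t • w) w‖ ≤ _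
        rw [hh, fderiv_diffs hg]
        exact key _)
    simp only [one_smul, zero_smul, add_zero] at hmv
    refine hmv.trans (le_of_eq ?_)
    rw [List.map_cons, List.prod_cons]
    ring

omit [NormedSpace ℝ V] [NormedSpace ℝ E] in
theorem diffs_comp {W : Type*} [NormedAddCommGroup W] (G : W → E) (A : V →+ W) (c : W)
    (l : List V) (v : V) :
    diffs l (fun v => G (A v + c)) v = diffs (l.map A) G (A v + c) := by
  induction l generalizing v with
  | nil => rfl
  | cons a l ih =>
    rw [List.map_cons, diffs_cons, diffs_cons, diff_apply, diff_apply, ih, ih]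
    rw [map_add, add_right_comm]

end General

section PointPair

variable {J : Type*} [Fintype J] {E : Type*} [NormedAddCommGroup E] [NormedSpace ℝ E]

/-- translation of a point of `H3` -/
def tr (v : ℂ) (p : H3) : H3 := ⟨p.z + v, p.y, p.pos⟩

@[simp] theorem tr_z (v : ℂ) (p : H3) : (tr v p).z = p.z + v := rfl
@[simp] theorem tr_y (v : ℂ) (p : H3) : (tr v p).y = p.y := rfl

/-- translation of a point of the product -/
def trs {J : Type*} (v : J → ℂ) (p : J → H3) : J → H3 := fun j => tr (v j) (p j)

/-- the tuple of distances -/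
noncomputable def cds {J : Type*} (p p' : J → H3) : J → ℝ := fun j => H3.cd (p j) (p' j)

/-- the model function -/
noncomputable def modelG (Φ : (J → ℝ) → E) (x : (J → ℂ) × (J → ℝ)) : E :=
  Φ (fun j => ‖x.1 j‖ ^ 2 + x.2 j ^ 2)

theorem modelG_contDiff {Φ : (J → ℝ) → E} (hΦ : ContDiff ℝ ∞ Φ) : ContDiff ℝ ∞ (modelG Φ) := by
  refine hΦ.comp ?_
  rw [contDiff_pi]
  intro j
  refine ContDiff.add ?_ ?_
  · have : ContDiff ℝ ∞ (fun x : (J → ℂ) × (J → ℝ) => x.1 j) :=
      (contDiff_apply ℝ ℂ j).comp contDiff_fst
    exact this.norm_sq ℝ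
  · have : ContDiff ℝ ∞ (fun x : (J → ℂ) × (J → ℝ) => x.2 j) :=
      (contDiff_apply ℝ ℝ j).comp contDiff_snd
    exact this.pow 2

omit [NormedSpace ℝ E] in
theorem exists_bound_of_compact {Φ : (J → ℝ) → E} (hc : HasCompactSupport Φ) :
    ∃ R : ℝ, 1 ≤ R ∧ ∀ t : J → ℝ, Φ t ≠ 0 → ∀ j, |t j| ≤ R := by
  obtain ⟨R, hR⟩ := hc.isBounded.exists_norm_le
  refine ⟨max R 1, le_max_right _ _, fun t ht j => ?_⟩
  have := hR t (subset_tsupport _ ht)
  exact ((norm_le_pi_norm t j).trans this).trans (le_max_left _ _)

theorem modelG_hasCompactSupport {Φ : (J → ℝ) → E} (hc : HasCompactSupport Φ) :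
    HasCompactSupport (modelG Φ) := by
  obtain ⟨R, hR1, hR⟩ := exists_bound_of_compact hc
  apply HasCompactSupport.of_support_subset_isCompact (K := Metric.closedBall 0 R)
    (isCompact_closedBall 0 R)
  intro x hx
  have h := hR _ hx
  rw [mem_closedBall_zero_iff]
  have hs : ∀ a : ℝ, 0 ≤ a → a ^ 2 ≤ R → a ≤ R := by
    intro a ha h
    by_contra hcon
    push Not at hcon
    nlinarith
  have key : ∀ j, ‖x.1 j‖ ^ 2 + x.2 j ^ 2 ≤ R := fun j =>
    (le_abs_self _).trans (h j)
  rw [Prod.norm_def, max_le_iff, pi_norm_le_iff_of_nonneg (by linarith),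
    pi_norm_le_iff_of_nonneg (by linarith)]
  refine ⟨fun j => ?_, fun j => ?_⟩
  · exact hs _ (norm_nonneg _) (by nlinarith [key j, sq_nonneg (x.2 j)])
  · apply hs _ (norm_nonneg _)
    rw [Real.norm_eq_abs, sq_abs]
    nlinarith [key j, sq_nonneg ‖x.1 j‖]

/-- **Iterated differences of a point pair kernel in the unipotent direction.** -/
theorem exists_diffs_bound {Φ : (J → ℝ) → E} (hΦ : ContDiff ℝ ∞ Φ) (hc : HasCompactSupport Φ)
    (M : ℕ) : ∃ C : ℝ, 0 ≤ C ∧ ∀ (p p' : J → H3) (Y : ℝ), 0 < Y → (∀ j, Y ≤ (p j).y) →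
      ∀ (l : List (J → ℂ)), l.length = M → ∀ v : J → ℂ,
        ‖diffs l (fun v => Φ (cds (trs v p) p')) v‖ ≤
          C * (l.map (fun w => ‖w‖)).prod / Y ^ M := by
  classical
  obtain ⟨R, hR1, hR⟩ := exists_bound_of_compact hc
  have hG := modelG_contDiff hΦ
  obtain ⟨C₀, hC₀⟩ := (((modelG_hasCompactSupport hc).iteratedFDeriv M (𝕜 := ℝ)).exists_bound_of_continuous
    (hG.continuous_iteratedFDeriv (m := M) (by exact_mod_cast le_top)))
  set C₁ := max C₀ 0 with hC₁
  have hR0 : 0 ≤ R := by linarith
  refine ⟨C₁ * R ^ M, by positivity, fun p p' Y hY hpY l hl v => ?_⟩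
  by_cases hfar : ∃ j, R < ((p j).y ^ 2 + (p' j).y ^ 2) / (2 * (p j).y * (p' j).y)
  · obtain ⟨j, hj⟩ := hfar
    have h0 : (fun v : J → ℂ => Φ (cds (trs v p) p')) = fun _ => 0 := by
      funext u
      by_contra hne
      have h1 := hR _ hne j
      have h2 := (le_abs_self _).trans h1
      have h3 : ((p j).y ^ 2 + (p' j).y ^ 2) / (2 * (p j).y * (p' j).y) ≤ cds (trs u p) p' j := by
        have e1 := (p j).pos
        have e2 := (p' j).pos
        rw [cds, H3.cd, trs, tr_y]
        gcongr
        nlinarith [sq_nonneg ‖(tr (u j) (p j)).z - (p' j).z‖]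
      linarith
    rw [h0]
    have hz : ∀ (l : List (J → ℂ)) (v : J → ℂ), diffs l (fun _ : J → ℂ => (0 : E)) v = 0 := by
      intro l
      induction l with
      | nil => intro v; rfl
      | cons a l ih => intro v; rw [diffs_cons, diff_apply, ih, ih, sub_zero]
    rw [hz, norm_zero]
    have : 0 ≤ (l.map (fun w => ‖w‖)).prod := by
      apply List.prod_nonneg
      intro a ha
      obtain ⟨w, -, rfl⟩ := List.mem_map.mp ha
      exact norm_nonneg _
    positivity
  · push Not at hfar
    set α : J → ℝ := fun j => (Real.sqrt (2 * (p j).y * (p' j).y))⁻¹ with hα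
    have hpp : ∀ j, 0 < 2 * (p j).y * (p' j).y := fun j => by
      have e1 := (p j).pos
      have e2 := (p' j).pos
      positivity
    have hα0 : ∀ j, 0 ≤ α j := fun j => inv_nonneg.mpr (Real.sqrt_nonneg _)
    have hα2 : ∀ j, α j ^ 2 = (2 * (p j).y * (p' j).y)⁻¹ := fun j => by
      rw [hα, inv_pow, Real.sq_sqrt (hpp j).le]
    have hαle : ∀ j, α j ≤ R / Y := by
      intro j
      have e1 := (p j).pos
      have e2 := (p' j).pos
      have h1 := hfar j
      rw [div_le_iff₀ (hpp j)] at h1
      have h2 : (p j).y ≤ 2 * R * (p' j).y := by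
        by_contra hcon
        push Not at hcon
        nlinarith [mul_lt_mul_of_pos_right hcon e1, sq_nonneg (p' j).y]
      have h3 : Y ^ 2 ≤ R * (2 * (p j).y * (p' j).y) := by
        have h4 : Y * Y ≤ (p j).y * (p j).y := mul_self_le_mul_self hY.le (hpY j)
        nlinarith [mul_le_mul_of_nonneg_left h2 e1.le]
      have h5 : α j ^ 2 ≤ (R / Y) ^ 2 := by
        rw [hα2, div_pow, inv_eq_one_div, div_le_div_iff₀ (hpp j) (by positivity), one_mul]
        nlinarith [hpp j]
      exact le_of_sq_le_sq h5 (by positivity)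
    set A : (J → ℂ) →+ (J → ℂ) × (J → ℝ) :=
      { toFun := fun v => (fun j => (α j : ℂ) * v j, 0)
        map_zero' := by ext <;> simp
        map_add' := fun u v => by ext <;> simp [mul_add] } with hA
    set c : (J → ℂ) × (J → ℝ) := (fun j => (α j : ℂ) * ((p j).z - (p' j).z),
      fun j => Real.sqrt (((p j).y ^ 2 + (p' j).y ^ 2) / (2 * (p j).y * (p' j).y))) with hcdef
    have hfun : (fun v : J → ℂ => Φ (cds (trs v p) p')) = fun v => modelG Φ (A v + c) := by
      funext u
      rw [modelG]
      congr 1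
      funext j
      have e1 := (p j).pos
      have e2 := (p' j).pos
      have e3 : (A u + c).1 j = (α j : ℂ) * ((p j).z + u j - (p' j).z) := by
        simp only [hA, hcdef, AddMonoidHom.coe_mk, ZeroHom.coe_mk, Prod.fst_add, Pi.add_apply]
        ring
      have e4 : (A u + c).2 j =
          Real.sqrt (((p j).y ^ 2 + (p' j).y ^ 2) / (2 * (p j).y * (p' j).y)) := by
        simp only [hA, hcdef, AddMonoidHom.coe_mk, ZeroHom.coe_mk, Prod.snd_add, Pi.add_apply,
          Pi.zero_apply, zero_add]
      rw [e3, e4, Real.sq_sqrt (by positivity), norm_mul, mul_pow, Complex.norm_real,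
        Real.norm_of_nonneg (hα0 j), hα2, cds, H3.cd, trs, tr_z, tr_y]
      field_simp
      ring
    rw [hfun, diffs_comp]
    have hbound := norm_diffs_le hG (l.map A) (C := C₁) (by
      intro u
      rw [List.length_map, hl]
      exact (hC₀ u).trans (le_max_left _ _)) (A v + c)
    refine hbound.trans ?_
    have hprod : ((l.map A).map (fun w => ‖w‖)).prod ≤
        (R / Y) ^ l.length * (l.map (fun w => ‖w‖)).prod := by
      clear hbound hfun hl
      induction l with
      | nil => simp
      | cons a l ih =>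
        rw [List.map_cons, List.map_cons, List.prod_cons, List.map_cons, List.prod_cons,
          List.length_cons, pow_succ]
        have h1 : ‖A a‖ ≤ R / Y * ‖a‖ := by
          have h2 : A a = (fun j => (α j : ℂ) * a j, 0) := rfl
          rw [h2, Prod.norm_def, norm_zero, max_le_iff]
          refine ⟨?_, by positivity⟩
          rw [pi_norm_le_iff_of_nonneg (by positivity)]
          intro j
          rw [norm_mul, Complex.norm_real, Real.norm_of_nonneg (hα0 j)]
          exact mul_le_mul (hαle j) (norm_le_pi_norm a j) (norm_nonneg _) (by positivity)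
        have h3 : 0 ≤ ((l.map A).map (fun w => ‖w‖)).prod := by
          apply List.prod_nonneg
          intro b hb
          obtain ⟨w, -, rfl⟩ := List.mem_map.mp hb
          exact norm_nonneg _
        calc ‖A a‖ * ((l.map A).map (fun w => ‖w‖)).prod
            ≤ (R / Y * ‖a‖) * ((R / Y) ^ l.length * (l.map (fun w => ‖w‖)).prod) :=
              mul_le_mul h1 ih h3 (by positivity)
          _ = _ := by ring
    have hC₁0 : 0 ≤ C₁ := le_max_right _ _
    calc C₁ * ((l.map A).map (fun w => ‖w‖)).prod
        ≤ C₁ * ((R / Y) ^ l.length * (l.map (fun w => ‖w‖)).prod) :=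
          mul_le_mul_of_nonneg_left hprod hC₁0
      _ = _ := by
        rw [hl, div_pow]
        ring

end PointPair

end Fermat.Agent.LT.Bd
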