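import Fermat.Agent.LT.Bd.Bounded
import Fermat.Agent.LT.Bd.Basis
import Fermat.Agent.LT.Sp.Cover
import Fermat.Agent.LT.H3.Ball
import Fermat.Agent.LT.FA.Kernel

set_option autoImplicit false

/-! # Automorphic kernels: measurability, global bounds -/

namespace Fermat.Agent.LT.Bd

open NumberField Module Matrix MeasureTheory Filter Topology
open scoped MatrixGroups ContDiff
open Sp

variable {F : Type*} [Field F] [NumberField F]
variable {D : Type*} [MulAction (GL (Fin 2) F) D]
variable {I : Type*} [Fintype I] {Φ : I → (InfinitePlace F → ℝ) → ℂ} {κ : I → DKer F D}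

omit [NumberField F] in
theorem continuous_applyHF (w : InfinitePlace F) : Continuous fun x : HF F => x w :=
  continuous_apply (A := fun _ : InfinitePlace F => H3) w

omit [NumberField F] in
theorem continuous_cds : Continuous fun q : HF F × HF F => cds q.1 q.2 := by
  rw [continuous_pi_iff]
  intro w
  have h0 := continuous_applyHF w
  have h1 : Continuous fun q : HF F × HF F => q.1 w := Continuous.comp h0 continuous_fst
  have h2 : Continuous fun q : HF F × HF F => q.2 w := Continuous.comp h0 continuous_snd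
  have h3 : Continuous fun q : HF F × HF F => (q.1 w, q.2 w) := Continuous.prodMk h1 h2
  have h4 := Continuous.comp (g := fun q : H3 × H3 => H3.cd q.1 q.2)
    (f := fun q : HF F × HF F => (q.1 w, q.2 w)) H3.continuous_cd h3
  exact h4

omit [NumberField F] in
theorem continuous_Phi {Ψ : (InfinitePlace F → ℝ) → ℂ} (hΨ : Continuous Ψ) :
    Continuous fun q : HF F × HF F => Ψ (cds q.1 q.2) :=
  Continuous.comp (g := Ψ) (f := fun q : HF F × HF F => cds q.1 q.2) hΨ continuous_cds

/-- the kernel for fixed finite components is continuous -/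
theorem continuous_famKer (hΦ : ∀ i, ContDiff ℝ ∞ (Φ i)) (d d' : D) :
    Continuous fun q : HF F × HF F => famKer Φ κ (q.1, d) (q.2, d') := by
  refine continuous_finsetSum _ fun i _ => ?_
  have h1 : Continuous fun q : HF F × HF F => Φ i (cds q.1 q.2) :=
    continuous_Phi (hΦ i).continuous
  exact h1.mul (continuous_const (y := (κ i).κ d d'))

section Meas

variable [MeasurableSpace D] [DiscreteMeasurableSpace D] [Countable D]

omit [NumberField F] [MulAction (GL (Fin 2) F) D] [DiscreteMeasurableSpace D] [Countable D] in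
theorem measurable_pairHF :
    Measurable fun q : (HF F × D) × (HF F × D) => (q.1.1, q.2.1) :=
  (measurable_fst.comp measurable_fst).prodMk (measurable_fst.comp measurable_snd)

omit [MulAction (GL (Fin 2) F) D] [DiscreteMeasurableSpace D] [Countable D] in
theorem measurable_fnHF {f : HF F × HF F → ℂ} (hf : Measurable f) :
    Measurable fun q : (HF F × D) × (HF F × D) => f (q.1.1, q.2.1) :=
  Measurable.comp (g := f) (f := fun q : (HF F × D) × (HF F × D) => (q.1.1, q.2.1)) hf
    measurable_pairHF

theorem measurable_famKer (hΦ : ∀ i, ContDiff ℝ ∞ (Φ i)) :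
    Measurable fun q : (HF F × D) × (HF F × D) => famKer Φ κ q.1 q.2 := by
  refine Finset.measurable_sum _ fun i _ => Measurable.mul ?_ ?_
  · have h2 : Measurable fun q : HF F × HF F => Φ i (cds q.1 q.2) :=
      (continuous_Phi (hΦ i).continuous).measurable
    exact measurable_fnHF h2
  · have h1 : Measurable fun q : (HF F × D) × (HF F × D) => (q.1.2, q.2.2) :=
      (measurable_snd.comp measurable_fst).prodMk (measurable_snd.comp measurable_snd)
    have h2 : Measurable fun q : D × D => (κ i).κ q.1 q.2 := Measurable.of_discrete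
    exact h2.comp h1

variable [FinPart F D]

omit [MeasurableSpace D] [DiscreteMeasurableSpace D] [Countable D] in
/-- only finitely many translates contribute -/
theorem exists_finset_support [IsTotallyComplex F] (hc : ∀ i, HasCompactSupport (Φ i))
    (x x' : HF F × D) : ∃ Ψ : Finset PGL(2, F), ∀ g, g ∉ Ψ → famKer Φ κ x (g • x') = 0 := by
  obtain ⟨R, Y, hR1, -, hreg⟩ := exists_region x.1 0
  obtain ⟨C, -, hC⟩ := exists_support_count (κ := κ) hc hR1 1 x.2
  obtain ⟨Ψ, -, hΨ⟩ := hC x.1 Y hreg x'
  refine ⟨Ψ, fun g hg => ?_⟩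
  rw [famKer]
  refine Finset.sum_eq_zero fun i _ => ?_
  have := hΨ 0 (by simp) g hg i
  rwa [trF_zero] at this

omit [MeasurableSpace D] [DiscreteMeasurableSpace D] [Countable D] in
theorem hasSum_autK [IsTotallyComplex F] (hc : ∀ i, HasCompactSupport (Φ i))
    (x x' : HF F × D) : HasSum (fun g : PGL(2, F) => famKer Φ κ x (g • x'))
      (autK (famKer Φ κ) x x') := by
  obtain ⟨Ψ, hΨ⟩ := exists_finset_support (κ := κ) hc x x'
  exact (summable_of_ne_finset_zero (s := Ψ) hΨ).hasSum

theorem measurable_autK [IsTotallyComplex F] (hΦ : ∀ i, ContDiff ℝ ∞ (Φ i))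
    (hc : ∀ i, HasCompactSupport (Φ i)) :
    Measurable fun q : (HF F × D) × (HF F × D) => autK (famKer Φ κ) q.1 q.2 := by
  refine measurable_of_tendsto_metrizable' (atTop : Filter (Finset PGL(2, F)))
    (f := fun s q => ∑ g ∈ s, famKer Φ κ q.1 (g • q.2)) ?_ ?_
  · intro s
    refine Finset.measurable_sum _ fun g _ => ?_
    have h1 : Measurable fun q : (HF F × D) × (HF F × D) => (q.1, g • q.2) :=
      measurable_fst.prodMk ((measurable_const_smul g).comp measurable_snd)
    have h2 := measurable_famKer (κ := κ) hΦ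
    generalize famKer Φ κ = k at h2 ⊢
    exact Measurable.comp (g := fun q : (HF F × D) × (HF F × D) => k q.1 q.2) h2 h1
  · rw [tendsto_pi_nhds]
    intro q
    exact hasSum_autK hc q.1 q.2

theorem stronglyMeasurable_autK [IsTotallyComplex F] (hΦ : ∀ i, ContDiff ℝ ∞ (Φ i))
    (hc : ∀ i, HasCompactSupport (Φ i)) :
    StronglyMeasurable (Function.uncurry (autK (famKer Φ κ))) :=
  (measurable_autK hΦ hc).stronglyMeasurable

end Meas

variable [FinPart F D]

/-- the mean over the unipotent directions vanishes (in the first variable) -/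
def MeanZero (F : Type*) [Field F] [NumberField F] [IsTotallyComplex F] {D : Type*}
    [MulAction (GL (Fin 2) F) D] (K : HF F × D → HF F × D → ℂ) : Prop :=
  ∀ (d : D) (N : ℕ) (hN : N ≠ 0),
    (∀ i, ∃ t ∈ trans F d, ∀ w : InfinitePlace F, bN F N hN i w = w.embedding t) →
      ∀ (p : HF F) (x' : HF F × D), ∫ v in ZSpan.fundamentalDomain (bN F N hN),
        K (trF v p, d) x' = 0

/-- **Automorphic kernels of mean zero are bounded.** -/
theorem exists_global_bound [IsTotallyComplex F] (hΦ : ∀ i, ContDiff ℝ ∞ (Φ i))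
    (hc : ∀ i, HasCompactSupport (Φ i)) (h0 : MeanZero F (autK (famKer Φ κ))) :
    ∃ C : ℝ, ∀ x x' : HF F × D, ‖autK (famKer Φ κ) x x'‖ ≤ C := by
  classical
  obtain ⟨R, D₁, hR, hcov⟩ := exists_cover F D
  have h1 : ∀ d : D, ∃ C : ℝ, ∀ p ∈ Siegel F R, ∀ x' : HF F × D,
      ‖autK (famKer Φ κ) (p, d) x'‖ ≤ C := by
    intro d
    obtain ⟨N, hN, hb⟩ := exists_basis (F := F) d
    exact exists_bound_of_mean_zero hΦ hc hR d (bN F N hN) hb fun p _ x' => h0 d N hN hb p x'
  choose C hC using h1
  refine ⟨∑ d ∈ D₁, |C d|, fun x x' => ?_⟩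
  obtain ⟨g, hg1, hg2⟩ := hcov x
  have e : autK (famKer Φ κ) x x' = autK (famKer Φ κ) ((g • x).1, (g • x).2) x' :=
    (autK_smul_left _ famKer_smul (ProjGenLinGroup.mk g) x x').symm
  rw [e]
  refine (hC _ _ hg1 x').trans ((le_abs_self _).trans ?_)
  exact Finset.single_le_sum (f := fun d => |C d|) (fun _ _ => abs_nonneg _) hg2

/-- **The killed operators are Hilbert–Schmidt.** -/
theorem isL2Ker₂_autK [IsTotallyComplex F] [MeasurableSpace D] [DiscreteMeasurableSpace D]
    [Countable D] (hΦ : ∀ i, ContDiff ℝ ∞ (Φ i))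
    (hc : ∀ i, HasCompactSupport (Φ i)) (h0 : MeanZero F (autK (famKer Φ κ)))
    (ν : Measure (HF F × D)) [IsFiniteMeasure ν] : FA.IsL2Ker₂ ν (autK (famKer Φ κ)) := by
  obtain ⟨C, hC⟩ := exists_global_bound hΦ hc h0
  exact FA.isL2Ker₂_of_bound (stronglyMeasurable_autK hΦ hc) hC

end Fermat.Agent.LT.Bd
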