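import Fermat.Agent.LT.Bd.Count
import Fermat.Agent.LT.Bd.Diff
import Fermat.Agent.LT.Sp.Cor

set_option autoImplicit false

/-! # The number of translates near a point high in the cusp -/

namespace Fermat.Agent.LT.Bd

open NumberField Module Matrix MeasureTheory
open scoped MatrixGroups
open Sp

variable {F : Type*} [Field F] [NumberField F]

/-- **Counting.** -/
theorem exists_count (F : Type*) [Field F] [NumberField F] [IsTotallyComplex F] (N : ℕ) {R : ℝ}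
    (hR : 1 ≤ R) (R' : ℝ) : ∃ C : ℝ, 0 ≤ C ∧ ∀ (x : HF F) (Y : ℝ),
      (∀ w, ‖(x w).z‖ ≤ R ∧ R⁻¹ ≤ (x w).y ∧ (x w).y ≤ Y) →
      ∃ Φ : Finset PGL(2, F), (Φ.card : ℝ) ≤ C * (1 + Y) ^ (cA F) ∧
        ∀ g : GL (Fin 2) F, BddDen N g → (∀ w, H3.cd (x w) ((g • x) w) ≤ R') →
          ProjGenLinGroup.mk g ∈ Φ :=
  exists_count_of_balanced (exists_balanced N) hR R'

omit [NumberField F] in
theorem cd_smul_HF (g : GL (Fin 2) F) (p p' : HF F) (w : InfinitePlace F) :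
    H3.cd ((g • p) w) ((g • p') w) = H3.cd (p w) (p' w) := by
  rw [smul_HF_apply, smul_HF_apply, H3.cd_smul]

variable {D : Type*} [MulAction (GL (Fin 2) F) D] [FinPart F D]

/-- **The number of translates near a point.** -/
theorem exists_near_count [IsTotallyComplex F] (S : Finset D) {R : ℝ} (hR : 1 ≤ R) (Rc : ℝ) :
    ∃ C : ℝ, 0 ≤ C ∧ ∀ (p : HF F) (Y : ℝ),
      (∀ w, ‖(p w).z‖ ≤ R ∧ R⁻¹ ≤ (p w).y ∧ (p w).y ≤ Y) → ∀ x' : HF F × D,
      ∃ Ψ : Finset PGL(2, F), (Ψ.card : ℝ) ≤ C * (1 + Y) ^ (cA F) ∧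
        ∀ g : PGL(2, F), (∀ w, H3.cd (p w) ((g • x'.1) w) ≤ Rc) → g • x'.2 ∈ S → g ∈ Ψ := by
  classical
  obtain ⟨N, -, hN⟩ := exists_bddDen_of_finset (F := F) S S
  obtain ⟨C, hC0, hC⟩ := exists_count F N hR (2 * Rc * Rc)
  refine ⟨C, hC0, fun p Y hp x' => ?_⟩
  have hY0 : 0 < Y := by
    obtain ⟨w⟩ : Nonempty (InfinitePlace F) := inferInstance
    exact (p w).pos.trans_le (hp w).2.2
  by_cases hex : ∃ g : PGL(2, F), (∀ w, H3.cd (p w) ((g • x'.1) w) ≤ Rc) ∧ g • x'.2 ∈ S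
  · obtain ⟨g₀, hg₀, hg₀S⟩ := hex
    obtain ⟨Φ, hΦ, hmem⟩ := hC p Y hp
    refine ⟨Φ.image (· * g₀), ?_, ?_⟩
    · refine le_trans ?_ hΦ
      exact_mod_cast Finset.card_image_le
    · intro g hg hgS
      rw [Finset.mem_image]
      refine ⟨g * g₀⁻¹, ?_, by rw [inv_mul_cancel_right]⟩
      obtain ⟨γ, rfl⟩ := ProjGenLinGroup.mk_surjective g
      obtain ⟨γ₀, rfl⟩ := ProjGenLinGroup.mk_surjective g₀
      rw [← map_inv, ← map_mul]
      apply hmem
      · apply hN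
        refine ⟨γ₀ • x'.2, hg₀S, ?_⟩
        rw [mul_smul, inv_smul_smul]
        exact hgS
      · intro w
        have h1 := H3.cd_triangle (p w) ((γ • x'.1) w) (((γ * γ₀⁻¹) • p) w)
        have h2 : H3.cd ((γ • x'.1) w) (((γ * γ₀⁻¹) • p) w) = H3.cd ((γ₀ • x'.1) w) (p w) := by
          have e : γ • x'.1 = (γ * γ₀⁻¹) • (γ₀ • x'.1) := by
            rw [mul_smul, inv_smul_smul]
          rw [e, cd_smul_HF]
        rw [h2, H3.cd_symm _ (p w)] at h1
        have h3 : H3.cd (p w) ((γ • x'.1) w) ≤ Rc := hg w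
        have h4 : H3.cd (p w) ((γ₀ • x'.1) w) ≤ Rc := hg₀ w
        have h5 := H3.one_le_cd (p w) ((γ • x'.1) w)
        have h6 := H3.one_le_cd (p w) ((γ₀ • x'.1) w)
        refine h1.trans ?_
        have h7 : 0 ≤ Rc := by linarith
        gcongr
  · refine ⟨∅, ?_, ?_⟩
    · rw [Finset.card_empty, Nat.cast_zero]
      positivity
    · intro g hg hgS
      exact absurd ⟨g, hg, hgS⟩ hex

end Fermat.Agent.LT.Bd
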